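/-
Programme FF (S19), chapter FINAL (lead): **the concrete assembly, abstract over the reduction datum**.

`torsFlat_of_redDatum` : for a reduction datum `D` of `X₀(N)` over `ℚ̄` along `A = padicPlace ℓ`
with the F0 obligations (`hx`, `hsurj`, chart cover, inertia acts trivially on the discs,
inertia-fixed uniformizing functions off a finite set), `J₀(N)[ℓ^k]` has a finite flat model over
`ℤ_(ℓ)`: `Transfer0.TorsFlat N ℓ k`.
-/
import Mathlib
import Fermat.Agent.FF.INST.Main1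
import Fermat.Agent.FF.INST.Orbit0
import Fermat.Agent.FF.BASE.Place2
import Fermat.Agent.FF.HOPF.Tors6
import Fermat.Agent.FF.LEVEL.Transfer0
import Fermat.Agent.X0.HasCanDivInst

set_option autoImplicit false
set_option linter.unusedSectionVars false
set_option linter.style.longLine false

namespace Fermat.Agent.FF.FINAL.Final0

open AlgebraicCurve ModularCurve Fermat.Agent.X0.FF Fermat.Agent.RR.LSpace
open Fermat.Agent.FF.RED.RedDatum7 Fermat.Agent.FF.RED.Disc7 Fermat.Agent.FF.KER.Ker0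
open Fermat.Agent.FF.BASE.ApproxGen2 Fermat.Agent.FF.NS.Link9 Fermat.Agent.FF.BASE.Place2
open Fermat.Agent.FF.LEVEL.Transfer0 Fermat.Agent.TW.FLAT.Points6 GaloisRep
open Fermat.Agent.TW.LOC.Defs2 Fermat.Agent.FF.HOPF.Tors6 Fermat.Agent.FF.INST.Orbit0
open Fermat.Agent.TW.FLAT.FlatModule6

noncomputable section

variable (ℓ : ℕ) [Fact ℓ.Prime] (N : ℕ) [NeZero N] (k : ℕ)

/-- the inertia group acting on the function field of `X₀(N)` over `ℚ̄`. -/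
def rhoI : ↥(Iv ℓ) →* SemilinearAut Qb (X0.FF N) :=
  (arithmeticGalois (modularFunctionFieldFull N)).comp (Iv ℓ).subtype

theorem rhoI_apply (γ : ↥(Iv ℓ)) :
    rhoI ℓ N γ = arithmeticGalois (modularFunctionFieldFull N) γ.1 := rfl

/-- the `ℓ^k`-torsion subgroup, as an additive subgroup. -/
def torsSub : AddSubgroup (Pic0 Qb (X0.FF N)) :=
  (Submodule.torsionBy ℤ (JZero N) ((ℓ : ℤ) ^ k)).toAddSubgroup

theorem stab_torsSub (γ : ↥(Iv ℓ)) (x : Pic0 Qb (X0.FF N)) (hx : x ∈ torsSub ℓ N k) :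
    rhoI ℓ N γ • x ∈ torsSub ℓ N k :=
  (torsAct N ((ℓ : ℤ) ^ k) γ.1 ⟨x, hx⟩).2

/-- the hypotheses on the place `padicPlace ℓ` (to be discharged by `PlaceFacts3`). -/
structure PlaceHyp : Prop where
  infinite_A : Infinite ↥(padicPlace ℓ)
  hΓA : ∀ (γ : ↥(Iv ℓ)) (a : Qb), a ∈ padicPlace ℓ → γ • a ∈ padicPlace ℓ
  hsmall : Fermat.Agent.FF.GLUE.UniqSeries7.Small (IsLocalRing.maximalIdeal ↥(padicPlace ℓ))
  hrank : ∀ w : ↥(padicPlace ℓ), w ≠ 0 → ∀ c : ↥(padicPlace ℓ), ¬ IsUnit c →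
    ∃ n : ℕ, c ^ n ∈ Ideal.span {w}
  hWA : ∀ w : ↥(Wur ℓ), algebraMap ↥(Wur ℓ) Qb w ∈ padicPlace ℓ
  hWinj : Function.Injective (algebraMap ↥(Wur ℓ) Qb)
  hWfix : ∀ a : ↥(padicPlace ℓ), (∀ γ : ↥(Iv ℓ), γ • (a : Qb) = (a : Qb)) →
    ∃ w : ↥(Wur ℓ), algebraMap ↥(Wur ℓ) Qb w = (a : Qb)
  hnorm : ∀ σ ∈ Dv ℓ, ∀ γ ∈ Iv ℓ, σ⁻¹ * γ * σ ∈ Iv ℓ
  hO : ∀ σ ∈ Dv ℓ, ∀ o ∈ (padicPlace ℓ).toSubring, σ • o ∈ (padicPlace ℓ).toSubring
  hW : ∀ σ ∈ Dv ℓ, ∀ v : ↥(Wur ℓ), ∃ v' : ↥(Wur ℓ),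
    algebraMap ↥(Wur ℓ) Qb v' = σ • algebraMap ↥(Wur ℓ) Qb v

/-- the statement of F7's final theorem (to be discharged by `Final2.hasFlatModel_of_unramified`). -/
def LocalDescent : Prop :=
  ∀ {M : Type} [AddCommGroup M] [Finite M] {act : GQ → M → M},
    (∀ x, act 1 x = x) → (∀ σ τ x, act (σ * τ) x = act σ (act τ x)) →
    (∀ σ x y, act σ (x + y) = act σ x + act σ y) →
    (∀ x : M, ∃ K : IntermediateField ℚ Qb, FiniteDimensional ℚ K ∧
      ∀ σ ∈ K.fixingSubgroup, act σ x = x) →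
    ∀ {S0 : Set (M → Qb)}, ApproxGen (Wur ℓ) (padicPlace ℓ).toSubring (fun γ : Iv ℓ => act γ.1) S0 →
    (∀ σ ∈ Dv ℓ, ∀ s ∈ S0, (fun m => σ • s (act σ⁻¹ m)) ∈ S0) →
    HasFlatModel (ratLocalizedAt ℓ) Qb GQ M act

variable {ℓ N}

/-- **the concrete assembly**, abstract over the reduction datum. -/
theorem torsFlat_of_redDatum (hP : PlaceHyp ℓ) (hLD : LocalDescent ℓ)
    {κ Ft : Type} [Field κ] [Field Ft] [Algebra κ Ft] [Infinite κ]
    (D : RedDatum Qb (X0.FF N) κ Ft) (hDA : D.A = padicPlace ℓ)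
    {x : X0.FF N} (hx : IsGen Qb x) (hsurj : Function.Surjective D.red) {ι : Type}
    (C : ChartCover D ι)
    (triv : ∀ γ ∈ Iv ℓ, ∀ P : Place Qb (X0.FF N),
      D.r (arithmeticGalois (modularFunctionFieldFull N) γ • P) = D.r P)
    (Bad : Finset (Place κ Ft))
    (hunif : ∀ Q : Place κ Ft, Q ∉ Bad → ∃ u : D.G, D.PoleFree (u : X0.FF N) Q ∧
      Q.ord (D.red u) = 1 ∧
      ∀ γ ∈ Iv ℓ, arithmeticGalois (modularFunctionFieldFull N) γ • (u : X0.FF N) = (u : X0.FF N)) :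
    TorsFlat N ℓ k := by
  haveI := Fermat.Agent.X0.HasCanDivInst.hasCanonicalDivisor N
  have hne : ((ℓ : ℤ) ^ k) ≠ 0 :=
    pow_ne_zero k (Int.natCast_ne_zero.2 (Fact.out : ℓ.Prime).ne_zero)
  haveI hfin : Finite (Submodule.torsionBy ℤ (JZero N) ((ℓ : ℤ) ^ k)) := finite_tors N _ hne
  haveI : Infinite ↥D.A := by rw [hDA]; exact hP.infinite_A
  -- the approximate generating set over inertia
  obtain ⟨S0, h0⟩ := Fermat.Agent.FF.INST.Main1.exists_approxGen_main (D := D) (rhoI ℓ N) hx hsurj C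
    (fun γ a => rfl) (fun γ P => triv γ.1 γ.2 P) Bad
    (fun Q hQ => by
      obtain ⟨u, h1, h2, h3⟩ := hunif Q hQ
      exact ⟨u, h1, h2, fun γ => h3 γ.1 γ.2⟩)
    (torsSub ℓ N k) hfin (stab_torsSub ℓ N k) (W := ↥(Wur ℓ))
    (by rw [hDA]; exact hP.hΓA) (by rw [hDA]; exact hP.hsmall) (by rw [hDA]; exact hP.hrank)
    (by rw [hDA]; exact hP.hWA) hP.hWinj (by rw [hDA]; exact hP.hWfix)
  -- on the torsion module, with the action `torsAct`
  have h0' : ApproxGen (Wur ℓ) (padicPlace ℓ).toSubring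
      (fun γ : Iv ℓ => torsAct N ((ℓ : ℤ) ^ k) γ.1) S0 := by
    have h := h0
    rw [hDA] at h
    exact h
  -- the orbit union under the decomposition group
  have h1 := approxGen_orbitUnion (act := torsAct N ((ℓ : ℤ) ^ k)) (torsAct_one N _)
    (torsAct_mul N _) (torsAct_add N _) (Dv ℓ) (Iv ℓ) hP.hnorm hP.hO hP.hWinj hP.hW
    (fun s _ => finite_twists (Dv ℓ) (fun a => finite_orbit_algEquiv a) s) h0'
  exact hLD (torsAct_one N _) (torsAct_mul N _) (torsAct_add N _) (hopen_tors N _) h1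
    (fun σ hσ s hs => orbitUnion_stable (torsAct_mul N _) hσ hs)

end

end Fermat.Agent.FF.FINAL.Final0
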