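/-
Programme FF (S19), chapter FINAL (lead): the two non-geometric hypotheses of
`Final0.torsFlat_of_redDatum` discharged:

* `localDescent ℓ : Final0.LocalDescent ℓ` (= `Final2.hasFlatModel_of_unramified`, helper2);
* `placeHyp ℓ : Final0.PlaceHyp ℓ` (facts on `padicPlace ℓ`, `Iv ℓ`, `Dv ℓ`, `Wur ℓ`:
  `Inertia2` (helper2) + rank one / smallness / infiniteness);
* `torsFlat_of_redDatum'` : `Final0.torsFlat_of_redDatum` with both plugged in.
-/
import Mathlib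
import Fermat.Agent.FF.FINAL.Final0
import Fermat.Agent.FF.BASE.Inertia2

set_option autoImplicit false
set_option linter.unusedSectionVars false
set_option linter.style.longLine false

namespace Fermat.Agent.FF.FINAL.Final1

open AlgebraicCurve ModularCurve Fermat.Agent.X0.FF Fermat.Agent.RR.LSpace
open Fermat.Agent.FF.RED.RedDatum7 Fermat.Agent.FF.RED.Disc7 Fermat.Agent.FF.KER.Ker0
open Fermat.Agent.FF.BASE.ApproxGen2 Fermat.Agent.FF.NS.Link9 Fermat.Agent.FF.BASE.Place2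
open Fermat.Agent.FF.LEVEL.Transfer0 Fermat.Agent.TW.FLAT.Points6 GaloisRep
open Fermat.Agent.TW.LOC.Defs2 Fermat.Agent.TW.FLAT.FlatModule6 Fermat.Agent.FF.FINAL.Final0
open Fermat.Agent.FF.BASE.Inertia2

noncomputable section

variable (ℓ : ℕ) [Fact ℓ.Prime]

theorem localDescent : LocalDescent ℓ := by
  intro M _ _ act hact1 hactmul hactadd hopen S0 h0 hstab
  exact Fermat.Agent.FF.BASE.Final2.hasFlatModel_of_unramified ℓ hact1 hactmul hactadd hopen h0 hstab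

theorem infinite_A : Infinite ↥(padicPlace ℓ) := by
  have hinj : Function.Injective (fun n : ℕ => (⟨(n : Qb), natCast_mem _ n⟩ : ↥(padicPlace ℓ))) := by
    intro a b h
    have h' : (a : Qb) = (b : Qb) := congrArg Subtype.val h
    exact_mod_cast h'
  exact Infinite.of_injective _ hinj

theorem hΓA (γ : ↥(Iv ℓ)) (a : Qb) (ha : a ∈ padicPlace ℓ) : γ • a ∈ padicPlace ℓ :=
  (smul_mem_Av_iff (Iv_le_Dv (ℓ := ℓ) γ.2)).2 ha

theorem hrank (w : ↥(padicPlace ℓ)) (hw : w ≠ 0) (c : ↥(padicPlace ℓ)) (hc : ¬ IsUnit c) :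
    ∃ n : ℕ, c ^ n ∈ Ideal.span {w} :=
  exists_pow_mem_span' hw ((IsLocalRing.mem_maximalIdeal c).2 hc)

theorem hsmall :
    Fermat.Agent.FF.GLUE.UniqSeries7.Small (IsLocalRing.maximalIdeal ↥(padicPlace ℓ)) := by
  intro c hc
  by_contra hc0
  have hc0' : (c : Qb) ≠ 0 := fun h => hc0 (Subtype.ext h)
  -- `ℓ^n` divides `c` for all `n`, so `nrm c ≤ ℓ^{-n}` for all `n`
  have hell : ∀ n : ℕ, nrm ℓ (c : Qb) ≤ ((ℓ : ℝ)⁻¹) ^ (n + 1) := by
    intro n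
    set x : ↥(padicPlace ℓ) := ⟨((ℓ : ℕ) : Qb) ^ (n + 1), pow_mem (natCast_mem _ ℓ) _⟩ with hx
    have hxm : x ∈ IsLocalRing.maximalIdeal ↥(padicPlace ℓ) := by
      rw [IsLocalRing.mem_maximalIdeal]
      refine (ValuationSubring.coe_mem_nonunits_iff).1 ?_
      rw [Fermat.Agent.FF.BASE.Place2.mem_nonunits_iff]
      show nrm ℓ (((ℓ : ℕ) : Qb) ^ (n + 1)) < 1
      rw [nrm_pow, nrm_natCast_self]
      exact pow_lt_one₀ (inv_ell_pos (ℓ := ℓ)).le (inv_ell_lt_one (ℓ := ℓ)) (Nat.succ_ne_zero n)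
    have hx0 : x ≠ 0 := by
      intro h
      have h' : ((ℓ : ℕ) : Qb) ^ (n + 1) = 0 := congrArg Subtype.val h
      exact pow_ne_zero _ (ell_ne_zero (ℓ := ℓ)) h'
    obtain ⟨d, hd⟩ := hc x hxm hx0
    have hd' : (c : Qb) = ((ℓ : ℕ) : Qb) ^ (n + 1) * (d : Qb) := by
      have := congrArg Subtype.val hd
      simpa [hx] using this
    rw [hd', nrm_mul, nrm_pow, nrm_natCast_self]
    have hd1 : nrm ℓ (d : Qb) ≤ 1 := mem_Av_iff.1 d.2
    calc ((ℓ : ℝ)⁻¹) ^ (n + 1) * nrm ℓ (d : Qb) ≤ ((ℓ : ℝ)⁻¹) ^ (n + 1) * 1 :=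
          mul_le_mul_of_nonneg_left hd1 (pow_nonneg (inv_ell_pos (ℓ := ℓ)).le _)
      _ = ((ℓ : ℝ)⁻¹) ^ (n + 1) := mul_one _
  obtain ⟨n, hn⟩ := exists_pow_lt_of_lt_one (nrm_pos (ℓ := ℓ) hc0') (inv_ell_lt_one (ℓ := ℓ))
  have h1 := hell n
  have h2 : ((ℓ : ℝ)⁻¹) ^ (n + 1) ≤ ((ℓ : ℝ)⁻¹) ^ n :=
    pow_le_pow_of_le_one (inv_ell_pos (ℓ := ℓ)).le (inv_ell_lt_one (ℓ := ℓ)).le (Nat.le_succ n)
  linarith

theorem placeHyp : PlaceHyp ℓ where
  infinite_A := infinite_A ℓ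
  hΓA := hΓA ℓ
  hsmall := hsmall ℓ
  hrank := hrank ℓ
  hWA := algebraMap_Wur_mem ℓ
  hWinj := algebraMap_Wur_injective ℓ
  hWfix := exists_Wur_of_fixed ℓ
  hnorm := conj_mem_Iv ℓ
  hO := smul_mem_placeS ℓ
  hW := exists_smul_Wur ℓ

variable {ℓ} {N : ℕ} [NeZero N] (k : ℕ)

/-- **the concrete assembly**, abstract over the reduction datum; only the F0 obligations remain. -/
theorem torsFlat_of_redDatum'
    {κ Ft : Type} [Field κ] [Field Ft] [Algebra κ Ft] [Infinite κ]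
    (D : RedDatum Qb (X0.FF N) κ Ft) (hDA : D.A = padicPlace ℓ)
    {x : X0.FF N} (hx : IsGen Qb x) (hsurj : Function.Surjective D.red) {ι : Type}
    (C : ChartCover D ι)
    (triv : ∀ γ ∈ Iv ℓ, ∀ P : Place Qb (X0.FF N),
      D.r (arithmeticGalois (modularFunctionFieldFull N) γ • P) = D.r P)
    (Bad : Finset (Place κ Ft))
    (hunif : ∀ Q : Place κ Ft, Q ∉ Bad → ∃ u : D.G, D.PoleFree (u : X0.FF N) Q ∧
      Q.ord (D.red u) = 1 ∧
      ∀ γ ∈ Iv ℓ, arithmeticGalois (modularFunctionFieldFull N) γ • (u : X0.FF N) = (u : X0.FF N)) :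
    TorsFlat N ℓ k :=
  torsFlat_of_redDatum k (placeHyp ℓ) (localDescent ℓ) D hDA hx hsurj C triv Bad hunif

end

end Fermat.Agent.FF.FINAL.Final1
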