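/-
Programme FF (S19), chapter FINAL (lead): `Final1.torsFlat_of_redDatum'` instantiated at helper1's
concrete reduction datum `Inst1.redDatum` along `A = padicPlace ℓ`.

* `torsFlat_of_twoCharts` : from a two-chart model at level `M` (`ℓ ∤ M`) and the remaining F0
  obligations (`hsurj`, chart cover, `hunif`) to `TorsFlat M ℓ k`.
-/
import Mathlib
import Fermat.Agent.FF.FINAL.Final1
import Fermat.Agent.FF.IFACE.GalDatum1

set_option autoImplicit false
set_option linter.unusedSectionVars false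
set_option linter.style.longLine false
set_option synthInstance.maxHeartbeats 400000

noncomputable section

open AlgebraicCurve ModularCurve HahnSeries IntermediateField

namespace Fermat.Agent.FF.FINAL.Model0

open Fermat.Agent.ES.RED.Contract8 Fermat.Agent.ES.RED.TwoCharts8 Fermat.Agent.ES.RED.GaloisInst21
  Fermat.Agent.ES.RED.GaussRing15
  Fermat.Agent.X0 Fermat.Agent.X0.FF Fermat.Agent.RED.Interface4 Fermat.Agent.RED.BASE
  Fermat.Agent.FF.IFACE.GaussVal1 Fermat.Agent.FF.IFACE.Inst1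
  Fermat.Agent.FF.RED.RedDatum7 Fermat.Agent.FF.NS.Link9 Fermat.Agent.FF.BASE.Place2
  Fermat.Agent.FF.LEVEL.Transfer0 Fermat.Agent.TW.LOC.Defs2 Fermat.Agent.TW.FLAT.FlatModule6

variable {M : ℕ} [NeZero M] (n e : ℕ) [NeZero n] (ℓ : ℕ) [Fact ℓ.Prime] (hℓM : ¬ ℓ ∣ M)
  (hmem : Interface12.TMem n e M) (hgen : Interface12.TGenBase n e)
  {x : X0.FF M} {hx : IsGen Qbar x}
  (T : TwoCharts (padicPlace ℓ) hx ↥(modularFunctionFieldFullC (kA (padicPlace ℓ)) M))
  (hS0 : CoeffChart (F₀ := modularFunctionFieldFull M) T.S0)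
  (hS1 : CoeffChart (F₀ := modularFunctionFieldFull M) T.S1)
  (hs0 : T.S0.s = Interface12.tF M hmem)
  (peel0 : ∀ (P : Place Qbar (X0.FF M)) (hP : T.S0.InChart P), T.S0.PeelA P hP)
  (peel1 : ∀ (P : Place Qbar (X0.FF M)) (hP : T.S1.InChart P), T.S1.PeelA P hP)

/-- the reduction datum of `X₀(M)` along `padicPlace ℓ`. -/
abbrev Dat : RedDatum Qbar (X0.FF M) (kA (padicPlace ℓ))
    ↥(modularFunctionFieldFullC (kA (padicPlace ℓ)) M) :=
  redDatum n e ℓ hℓM hmem hgen (padicPlace ℓ) (liesOverPrime (ℓ := ℓ)) T hS0 hS1 hs0 peel0 peel1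

/-- **`J₀(M)[ℓ^k]` is finite flat over `ℤ_(ℓ)`**, from a two-chart model and the remaining F0
obligations. -/
theorem torsFlat_of_twoCharts (k : ℕ)
    (hsurj : Function.Surjective (Dat n e ℓ hℓM hmem hgen T hS0 hS1 hs0 peel0 peel1).red)
    (C : ChartCover (Dat n e ℓ hℓM hmem hgen T hS0 hS1 hs0 peel0 peel1) (Fin 2))
    (Bad : Finset (Place (kA (padicPlace ℓ)) ↥(modularFunctionFieldFullC (kA (padicPlace ℓ)) M)))
    (hunif : ∀ Q, Q ∉ Bad →
      ∃ u : (Dat n e ℓ hℓM hmem hgen T hS0 hS1 hs0 peel0 peel1).G,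
        (Dat n e ℓ hℓM hmem hgen T hS0 hS1 hs0 peel0 peel1).PoleFree (u : X0.FF M) Q ∧
        Q.ord ((Dat n e ℓ hℓM hmem hgen T hS0 hS1 hs0 peel0 peel1).red u) = 1 ∧
        ∀ γ ∈ Iv ℓ, arithmeticGalois (modularFunctionFieldFull M) γ • (u : X0.FF M)
          = (u : X0.FF M)) :
    TorsFlat M ℓ k := by
  haveI : IsAlgClosed (kA (padicPlace ℓ)) :=
    Fermat.Agent.ES.KRON.KronInst10.isAlgClosed_residueField (padicPlace ℓ)
  haveI : Infinite (kA (padicPlace ℓ)) := inferInstance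
  exact Fermat.Agent.FF.FINAL.Final1.torsFlat_of_redDatum' k
    (Dat n e ℓ hℓM hmem hgen T hS0 hS1 hs0 peel0 peel1) rfl hx hsurj C
    (fun γ hγ P => Fermat.Agent.FF.IFACE.GalDatum1.r_smul_of_mem_inertia n e ℓ hℓM hmem hgen
      (padicPlace ℓ) (liesOverPrime (ℓ := ℓ)) T hS0 hS1 hs0 peel0 peel1 hγ P)
    Bad hunif

end Fermat.Agent.FF.FINAL.Model0
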