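/-
Programme FF (S19), chapter FINAL (lead): from the model input of ES/TOP to `TorsFlat`.

* `HUnif ℓ` : the statement of the last F0 obligation (inertia-fixed uniformizing functions off a
  finite set, for every two-chart model along `padicPlace ℓ`);
* `torsFlat_of_level` : at every level `M` with a Hauptmodul base, `ℓ ∤ M`;
* `torsFlat_auxLevel` : at the auxiliary level `auxLevel ℓ N`, `ℓ ∤ N`;
* `torsFlat` : `TorsFlat N ℓ k` for `ℓ ∤ N` (level transfer `Transfer0.torsFlat_of_auxLevel`).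
-/
import Mathlib
import Fermat.Agent.FF.FINAL.Model0
import Fermat.Agent.FF.IFACE.NSInst9
import Fermat.Agent.ES.TOP.ModelAtFinal8

set_option autoImplicit false
set_option linter.unusedSectionVars false
set_option linter.style.longLine false
set_option synthInstance.maxHeartbeats 400000

noncomputable section

open AlgebraicCurve ModularCurve HahnSeries IntermediateField

namespace Fermat.Agent.FF.FINAL.Aux0

open Fermat.Agent.ES.RED.Contract8 Fermat.Agent.ES.RED.TwoCharts8 Fermat.Agent.ES.RED.GaloisInst21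
  Fermat.Agent.ES.RED.GaussRing15
  Fermat.Agent.X0 Fermat.Agent.X0.FF Fermat.Agent.RED.Interface4 Fermat.Agent.RED.BASE
  Fermat.Agent.FF.IFACE.GaussVal1 Fermat.Agent.FF.IFACE.Inst1
  Fermat.Agent.FF.RED.RedDatum7 Fermat.Agent.FF.NS.Link9 Fermat.Agent.FF.BASE.Place2
  Fermat.Agent.FF.LEVEL.Transfer0 Fermat.Agent.TW.LOC.Defs2 Fermat.Agent.TW.FLAT.FlatModule6
  Fermat.Agent.FF.FINAL.Model0 Fermat.Agent.ES.TOP.SPAux8 Fermat.Agent.RED.LVL
  Fermat.Agent.RED.BASE.Hauptmodul12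

/-- the last F0 obligation: inertia-fixed functions whose reductions are uniformizers, at all
places of the special fibre off a finite set. -/
def HUnif (ℓ : ℕ) [Fact ℓ.Prime] : Prop :=
  ∀ {M : ℕ} [NeZero M] (n e : ℕ) [NeZero n] (hℓM : ¬ ℓ ∣ M)
    (hmem : Interface12.TMem n e M) (hgen : Interface12.TGenBase n e)
    {x : X0.FF M} {hx : IsGen Qbar x}
    (T : TwoCharts (padicPlace ℓ) hx ↥(modularFunctionFieldFullC (kA (padicPlace ℓ)) M))
    (hS0 : CoeffChart (F₀ := modularFunctionFieldFull M) T.S0)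
    (hS1 : CoeffChart (F₀ := modularFunctionFieldFull M) T.S1)
    (hs0 : T.S0.s = Interface12.tF M hmem)
    (peel0 : ∀ (P : Place Qbar (X0.FF M)) (hP : T.S0.InChart P), T.S0.PeelA P hP)
    (peel1 : ∀ (P : Place Qbar (X0.FF M)) (hP : T.S1.InChart P), T.S1.PeelA P hP),
    ∃ Bad : Finset (Place (kA (padicPlace ℓ)) ↥(modularFunctionFieldFullC (kA (padicPlace ℓ)) M)),
      ∀ Q, Q ∉ Bad →
      ∃ u : (Dat n e ℓ hℓM hmem hgen T hS0 hS1 hs0 peel0 peel1).G,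
        (Dat n e ℓ hℓM hmem hgen T hS0 hS1 hs0 peel0 peel1).PoleFree (u : X0.FF M) Q ∧
        Q.ord ((Dat n e ℓ hℓM hmem hgen T hS0 hS1 hs0 peel0 peel1).red u) = 1 ∧
        ∀ γ ∈ Iv ℓ, arithmeticGalois (modularFunctionFieldFull M) γ • (u : X0.FF M)
          = (u : X0.FF M)

variable {ℓ : ℕ} [Fact ℓ.Prime]

/-- `J₀(M)[ℓ^k]` is finite flat over `ℤ_(ℓ)` at every level `M` with a Hauptmodul base, `ℓ ∤ M`. -/
theorem torsFlat_of_level (hU : HUnif ℓ) {M : ℕ} [NeZero M] (hℓM : ¬ ℓ ∣ M)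
    (n e : ℕ) [NeZero n] (hb : BaseHyp n e) (hnM : n ∣ M) (k : ℕ) : TorsFlat M ℓ k := by
  obtain ⟨x, hx, T, hS0, hS1, hs0, peel0, peel1⟩ :=
    Fermat.Agent.ES.TOP.ModelAtFinal8.modelAt ℓ (Fact.out : ℓ.Prime) (padicPlace ℓ)
      (liesOverPrime (ℓ := ℓ)) n e hb M hnM hℓM
  obtain ⟨Bad, hBad⟩ := hU n e hℓM (tMem_of_dvd hb hnM) (tGenBase' hb) T hS0 hS1 hs0 peel0 peel1
  exact torsFlat_of_twoCharts n e ℓ hℓM (tMem_of_dvd hb hnM) (tGenBase' hb) T hS0 hS1 hs0 peel0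
    peel1 k
    (Fermat.Agent.FF.IFACE.NSInst9.red_surjective n e ℓ hℓM (tMem_of_dvd hb hnM) (tGenBase' hb)
      (padicPlace ℓ) (liesOverPrime (ℓ := ℓ)) T hS0 hS1 hs0 peel0 peel1)
    (Fermat.Agent.FF.IFACE.NSInst9.chartCover n e ℓ hℓM (tMem_of_dvd hb hnM) (tGenBase' hb)
      (padicPlace ℓ) (liesOverPrime (ℓ := ℓ)) T hS0 hS1 hs0 peel0 peel1)
    Bad hBad

/-- at the auxiliary level. -/
theorem torsFlat_auxLevel (hU : HUnif ℓ) (N : ℕ) [NeZero N] (hℓN : ¬ ℓ ∣ N) (k : ℕ) :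
    haveI := LevelDegree17.neZero_auxLevel ℓ N
    TorsFlat (auxLevel ℓ N) ℓ k := by
  haveI := LevelDegree17.neZero_auxLevel ℓ N
  have hℓM : ¬ ℓ ∣ auxLevel ℓ N := not_dvd_auxLevel (Fact.out : ℓ.Prime) hℓN
  by_cases h2 : ℓ = 2
  · haveI : NeZero 9 := ⟨by norm_num⟩
    exact torsFlat_of_level hU hℓM 9 3 baseHyp_nine
      (Fermat.Agent.ES.TOP.AuxBase8.nine_dvd_auxLevel N h2) k
  · haveI : NeZero 4 := ⟨by norm_num⟩
    exact torsFlat_of_level hU hℓM 4 8 baseHyp_four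
      (Fermat.Agent.ES.TOP.AuxBase8.four_dvd_auxLevel N h2) k

/-- **`J₀(N)[ℓ^k]` is finite flat over `ℤ_(ℓ)`, `ℓ ∤ N`** (modulo `HUnif ℓ`). -/
theorem torsFlat (hU : HUnif ℓ) (N : ℕ) [NeZero N] (hℓN : ¬ ℓ ∣ N) (k : ℕ) : TorsFlat N ℓ k :=
  torsFlat_of_auxLevel ℓ N k (torsFlat_auxLevel hU N hℓN k)

end Fermat.Agent.FF.FINAL.Aux0
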