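import Mathlib
import Fermat.Agent.FF.BASE.Place2
import Fermat.Agent.FF.GLUE.UniqSeries7
import Fermat.Agent.FF.INST.Orbit0

set_option autoImplicit false
set_option linter.unusedSectionVars false
set_option linter.style.longLine false

/-!
# Facts about the place `A = padicPlace ℓ` of `ℚ̄` for the final assembly of programme FF

Everything for `A := padicPlace ℓ`, `Γ := ↥(Iv ℓ)` (acting on `ℚ̄` through Mathlib's subgroup
`MulSemiringAction`), `W := ↥(Wur ℓ)` (subring algebra), in exactly the shapes of the hypotheses of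
`Rational7.fgOut_of_psOut`, `Comul0.approxGen`, `Orbit0.approxGen_orbitUnion`.
-/

namespace Fermat.Agent.FF.FINAL.PlaceFacts3

open Fermat.Agent.TW.FLAT.FlatModule6 Fermat.Agent.FF.BASE.Place2

noncomputable section

variable (ℓ : ℕ) [Fact ℓ.Prime]

/-- `A = padicPlace ℓ` is infinite (it contains `ℕ`, characteristic zero). -/
theorem infinite_A : Infinite ↥(padicPlace ℓ) := by
  refine Infinite.of_injective (fun n : ℕ => ((n : ℕ) : ↥(padicPlace ℓ))) ?_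
  intro m n h
  have h' : ((m : ↥(padicPlace ℓ)) : Qb) = ((n : ↥(padicPlace ℓ)) : Qb) := congrArg Subtype.val h
  push_cast at h'
  exact_mod_cast h'

instance instInfiniteA : Infinite ↥(padicPlace ℓ) := infinite_A ℓ

/-- the inertia group preserves `A`. -/
theorem hΓA : ∀ (γ : ↥(Iv ℓ)) (a : Qb), a ∈ padicPlace ℓ → γ • a ∈ padicPlace ℓ := by
  intro γ a ha
  show (γ : GQ) a ∈ padicPlace ℓ
  exact (smul_mem_Av_iff (Iv_le_Dv γ.2)).2 ha

/-- **rank one**, in the shape of `Rational7.fgOut_of_psOut` / `Out3.psOut_of_law`. -/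
theorem hrank : ∀ w : ↥(padicPlace ℓ), w ≠ 0 → ∀ c : ↥(padicPlace ℓ), ¬ IsUnit c →
    ∃ n : ℕ, c ^ n ∈ Ideal.span {w} := by
  intro w hw c hc
  exact exists_pow_mem_span' hw (by rwa [IsLocalRing.mem_maximalIdeal, _root_.mem_nonunits_iff])

/-- the maximal ideal of `A` is small: no nonzero element of `A` is divisible by all nonzero
non-units. -/
theorem hsmall : Fermat.Agent.FF.GLUE.UniqSeries7.Small (IsLocalRing.maximalIdeal ↥(padicPlace ℓ)) := by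
  intro c hc
  by_contra hc0
  -- `x := ℓ · c` is a nonzero element of the maximal ideal, and `x ∣ c` forces `nrm c ≤ nrm c / ℓ`.
  have hℓA : ((ℓ : ℕ) : Qb) ∈ padicPlace ℓ := natCast_mem _ ℓ
  set e : ↥(padicPlace ℓ) := ⟨((ℓ : ℕ) : Qb), hℓA⟩ with he
  have hc0' : (c : Qb) ≠ 0 := fun h => hc0 (Subtype.ext h)
  have hxne : e * c ≠ 0 := by
    intro h
    have h' : ((e * c : ↥(padicPlace ℓ)) : Qb) = 0 := by rw [h]; rfl
    rw [MulMemClass.coe_mul] at h'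
    rcases mul_eq_zero.mp h' with h1 | h1
    · exact ell_ne_zero (ℓ := ℓ) h1
    · exact hc0' h1
  have hcA : nrm ℓ (c : Qb) ≤ 1 := mem_Av_iff.1 c.2
  have hxm : e * c ∈ IsLocalRing.maximalIdeal ↥(padicPlace ℓ) := by
    rw [IsLocalRing.mem_maximalIdeal, _root_.mem_nonunits_iff]
    intro hu
    have hun : ((e * c : ↥(padicPlace ℓ)) : Qb) ∉ (padicPlace ℓ).nonunits := by
      rw [ValuationSubring.coe_mem_nonunits_iff]
      exact fun h => h hu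
    apply hun
    rw [Fermat.Agent.FF.BASE.Place2.mem_nonunits_iff, MulMemClass.coe_mul, nrm_mul]
    show nrm ℓ ((ℓ : ℕ) : Qb) * nrm ℓ (c : Qb) < 1
    rw [nrm_natCast_self]
    calc ((ℓ : ℝ))⁻¹ * nrm ℓ (c : Qb) ≤ ((ℓ : ℝ))⁻¹ * 1 :=
          mul_le_mul_of_nonneg_left hcA inv_ell_pos.le
      _ = ((ℓ : ℝ))⁻¹ := mul_one _
      _ < 1 := inv_ell_lt_one
  obtain ⟨b, hb⟩ := hc (e * c) hxm hxne
  have hb' : (c : Qb) = ((ℓ : ℕ) : Qb) * (c : Qb) * (b : Qb) := by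
    have := congrArg Subtype.val hb
    simpa [MulMemClass.coe_mul] using this
  have hnb : nrm ℓ (b : Qb) ≤ 1 := mem_Av_iff.1 b.2
  have hcpos : 0 < nrm ℓ (c : Qb) := nrm_pos hc0'
  have h1 : nrm ℓ (c : Qb) = ((ℓ : ℝ))⁻¹ * nrm ℓ (c : Qb) * nrm ℓ (b : Qb) := by
    conv_lhs => rw [hb']
    rw [nrm_mul, nrm_mul, nrm_natCast_self]
  have h2 : ((ℓ : ℝ))⁻¹ * nrm ℓ (c : Qb) * nrm ℓ (b : Qb) ≤ ((ℓ : ℝ))⁻¹ * nrm ℓ (c : Qb) := by
    calc ((ℓ : ℝ))⁻¹ * nrm ℓ (c : Qb) * nrm ℓ (b : Qb)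
        ≤ ((ℓ : ℝ))⁻¹ * nrm ℓ (c : Qb) * 1 :=
          mul_le_mul_of_nonneg_left hnb (mul_nonneg inv_ell_pos.le hcpos.le)
      _ = ((ℓ : ℝ))⁻¹ * nrm ℓ (c : Qb) := mul_one _
  have h3 : ((ℓ : ℝ))⁻¹ * nrm ℓ (c : Qb) < 1 * nrm ℓ (c : Qb) :=
    mul_lt_mul_of_pos_right inv_ell_lt_one hcpos
  rw [one_mul] at h3
  linarith

/-- `W = Wur ℓ ⊆ A`. -/
theorem hWA : ∀ w : ↥(Wur ℓ), algebraMap ↥(Wur ℓ) Qb w ∈ padicPlace ℓ :=
  fun w => w.2.1

theorem hWinj : Function.Injective (algebraMap ↥(Wur ℓ) Qb) :=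
  fun _ _ h => Subtype.ext h

/-- `A^{Iv} ⊆ W`. -/
theorem hWfix : ∀ a : ↥(padicPlace ℓ), (∀ γ : ↥(Iv ℓ), γ • (a : Qb) = (a : Qb)) →
    ∃ w : ↥(Wur ℓ), algebraMap ↥(Wur ℓ) Qb w = (a : Qb) :=
  fun a ha => ⟨⟨(a : Qb), a.2, fun σ hσ => ha ⟨σ, hσ⟩⟩, rfl⟩

/-- the decomposition group normalises the inertia group. -/
theorem hnorm : ∀ σ ∈ Dv ℓ, ∀ γ ∈ Iv ℓ, σ⁻¹ * γ * σ ∈ Iv ℓ := by
  intro σ hσ γ hγ
  have := Fermat.Agent.TW.LOC.Defs2.conj_mem_inertiaSubgroupIn (padicPlace ℓ) ((Dv ℓ).inv_mem hσ) hγ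
  simpa using this

/-- the decomposition group preserves `A`. -/
theorem hO : ∀ σ ∈ Dv ℓ, ∀ o ∈ (padicPlace ℓ).toSubring, σ • o ∈ (padicPlace ℓ).toSubring := by
  intro σ hσ o ho
  show σ o ∈ padicPlace ℓ
  exact (smul_mem_Av_iff hσ).2 ho

/-- the decomposition group preserves `W`. -/
theorem hW : ∀ σ ∈ Dv ℓ, ∀ v : ↥(Wur ℓ), ∃ v' : ↥(Wur ℓ),
    algebraMap ↥(Wur ℓ) Qb v' = σ • algebraMap ↥(Wur ℓ) Qb v :=
  fun σ hσ v => ⟨⟨σ (v : Qb), smul_mem_Wur hσ v.2⟩, rfl⟩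

/-- finite Galois orbits on `ℚ̄`. -/
theorem horb : ∀ a : Qb, (Set.range fun σ : GQ => σ • a).Finite :=
  fun a => Fermat.Agent.FF.INST.Orbit0.finite_orbit_algEquiv a

end

end Fermat.Agent.FF.FINAL.PlaceFacts3
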