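/-
Programme FF (S19), chapter FINAL (helper2), file Discharge2: the two hypotheses `PlaceHyp ℓ` and
`LocalDescent ℓ` of lead's `Final0.torsFlat_of_redDatum` are THEOREMS:

* `placeHyp ℓ : Final0.PlaceHyp ℓ` (from helper3's `PlaceFacts3`);
* `localDescent ℓ : Final0.LocalDescent ℓ` (= `BASE/Final2.hasFlatModel_of_unramified`);
* `torsFlat_of_redDatum'` : `Final0.torsFlat_of_redDatum` with both discharged — only the F0
  obligations on the reduction datum remain.
-/
import Mathlib
import Fermat.Agent.FF.FINAL.Final0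
import Fermat.Agent.FF.FINAL.PlaceFacts3
import Fermat.Agent.FF.BASE.Final2

set_option autoImplicit false
set_option linter.unusedSectionVars false
set_option linter.style.longLine false

namespace Fermat.Agent.FF.FINAL.Discharge2

open AlgebraicCurve ModularCurve Fermat.Agent.X0.FF
open Fermat.Agent.FF.RED.RedDatum7 Fermat.Agent.FF.RED.Disc7
open Fermat.Agent.FF.NS.Link9 Fermat.Agent.FF.BASE.Place2
open Fermat.Agent.FF.LEVEL.Transfer0 GaloisRep
open Fermat.Agent.TW.FLAT.FlatModule6 Fermat.Agent.FF.FINAL.Final0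

noncomputable section

variable (ℓ : ℕ) [Fact ℓ.Prime]

/-- The hypotheses on the place `padicPlace ℓ` hold. -/
theorem placeHyp : PlaceHyp ℓ where
  infinite_A := PlaceFacts3.infinite_A ℓ
  hΓA := PlaceFacts3.hΓA ℓ
  hsmall := PlaceFacts3.hsmall ℓ
  hrank := PlaceFacts3.hrank ℓ
  hWA := PlaceFacts3.hWA ℓ
  hWinj := PlaceFacts3.hWinj ℓ
  hWfix := PlaceFacts3.hWfix ℓ
  hnorm := PlaceFacts3.hnorm ℓ
  hO := PlaceFacts3.hO ℓ
  hW := PlaceFacts3.hW ℓ

/-- F7's final theorem, in the shape of `Final0.LocalDescent`. -/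
theorem localDescent : LocalDescent ℓ := by
  intro M _ _ act hact1 hactmul hactadd hopen S0 h0 hstab
  exact Fermat.Agent.FF.BASE.Final2.hasFlatModel_of_unramified ℓ hact1 hactmul hactadd hopen h0 hstab

variable {ℓ} {N : ℕ} [NeZero N] {k : ℕ}

/-- **`Final0.torsFlat_of_redDatum` with the place and the descent hypotheses discharged**: only the
F0 obligations on the reduction datum remain. -/
theorem torsFlat_of_redDatum'
    {κ Ft : Type} [Field κ] [Field Ft] [Algebra κ Ft] [Infinite κ]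
    (D : RedDatum Qb (X0.FF N) κ Ft) (hDA : D.A = padicPlace ℓ)
    {x : X0.FF N} (hx : IsGen Qb x) (hsurj : Function.Surjective D.red) {ι : Type}
    (C : ChartCover D ι)
    (triv : ∀ γ ∈ Iv ℓ, ∀ P : Place Qb (X0.FF N),
      D.r (arithmeticGalois (modularFunctionFieldFull N) γ • P) = D.r P)
    (Bad : Finset (Place κ Ft))
    (hunif : ∀ Q : Place κ Ft, Q ∉ Bad → ∃ u : D.G, D.PoleFree (u : X0.FF N) Q ∧
      Q.ord (D.red u) = 1 ∧
      ∀ γ ∈ Iv ℓ, arithmeticGalois (modularFunctionFieldFull N) γ • (u : X0.FF N) = (u : X0.FF N)) :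
    TorsFlat N ℓ k :=
  torsFlat_of_redDatum (k := k) (placeHyp ℓ) (localDescent ℓ) D hDA hx hsurj C triv Bad hunif

end

end Fermat.Agent.FF.FINAL.Discharge2
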