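/-
Programme FF (S19), chapter FINAL (lead): the last F0 obligation `Aux0.HUnif ℓ`, from helper8's
`TameInst8.hunif_redDatum` at `A = padicPlace ℓ`, and the unconditional theorem

  `torsFlat ℓ N (hℓN : ¬ ℓ ∣ N) k : Transfer0.TorsFlat N ℓ k`.
-/
import Mathlib
import Fermat.Agent.FF.FINAL.Aux0
import Fermat.Agent.FF.IFACE.TameInst8

set_option autoImplicit false
set_option linter.unusedSectionVars false
set_option linter.style.longLine false
set_option synthInstance.maxHeartbeats 400000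

noncomputable section

namespace Fermat.Agent.FF.FINAL.HUnif0

open Fermat.Agent.FF.BASE.Place2 Fermat.Agent.FF.LEVEL.Transfer0 Fermat.Agent.FF.FINAL.Aux0

theorem hUnif (ℓ : ℕ) [Fact ℓ.Prime] : HUnif ℓ := by
  intro M _ n e _ hℓM hmem hgen x hx T hS0 hS1 hs0 peel0 peel1
  exact Fermat.Agent.FF.IFACE.TameInst8.hunif_redDatum n e ℓ hℓM hmem hgen (padicPlace ℓ)
    (liesOverPrime (ℓ := ℓ)) T hS0 hS1 hs0 peel0 peel1

/-- **`J₀(N)[ℓ^k]` is finite flat over `ℤ_(ℓ)` for `ℓ ∤ N`.** -/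
theorem torsFlat (ℓ : ℕ) [Fact ℓ.Prime] (N : ℕ) [NeZero N] (hℓN : ¬ ℓ ∣ N) (k : ℕ) :
    TorsFlat N ℓ k :=
  Aux0.torsFlat (hUnif ℓ) N hℓN k

end Fermat.Agent.FF.FINAL.HUnif0
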