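/-
Programme FF (S19), chapter FINAL (helper4): **the concrete Galois module `M = J0(N)[n]`**.

* `torsSub N n : AddSubgroup (JZero N)` the `n`-torsion (`n : ℤ`), finite for `n ≠ 0`
  (`FiniteTorsion15.finite_setOf_nsmul_eq_zero`), stable under `arithmeticGalois`;
* `actM N n σ m := ⟨arithmeticGalois (modularFunctionFieldFull N) σ • m, _⟩` with `hact1`, `hactmul`,
  `hactadd` and open stabilizers `hopen` (`OpenStab12.hasLevel_pic0`) in the shapes of
  `Tail6.hasFlatModel_of_local_of_open`;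
* `torsFlat_of_hasFlatModel` : a flat model of `(torsSub N (ℓ^k), actM)` gives `Transfer0.TorsFlat`.
-/
import Mathlib
import Fermat.Agent.FF.LEVEL.Transfer0
import Fermat.Agent.ES.GAL.OpenStab12
import Fermat.Agent.ES.KUM.FiniteTorsion15
import Fermat.Agent.TW.FLAT.Points6

set_option autoImplicit false
set_option linter.unusedSectionVars false
set_option linter.style.longLine false

open AlgebraicCurve ModularCurve

namespace Fermat.Agent.FF.FINAL.TorsM4

open Fermat.Agent.TW.FLAT.Points6 Fermat.Agent.TW.FLAT.FlatModule6 GaloisRep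
open Fermat.Agent.FF.LEVEL.Transfer0

noncomputable section

variable (N : ℕ) [NeZero N] (n : ℤ)

/-- the `n`-torsion subgroup of `J0(N)`. -/
def torsSub : AddSubgroup (JZero N) := (Submodule.torsionBy ℤ (JZero N) n).toAddSubgroup

theorem mem_torsSub_iff (x : JZero N) : x ∈ torsSub N n ↔ n • x = 0 :=
  Submodule.mem_torsionBy_iff n x

theorem finite_torsSub (hn : n ≠ 0) : Finite ↥(torsSub N n) := by
  have hpos : n.natAbs ≠ 0 := Int.natAbs_ne_zero.mpr hn
  haveI : NeZero n.natAbs := ⟨hpos⟩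
  have hfin := Fermat.Agent.ES.KUM.FiniteTorsion15.finite_setOf_nsmul_eq_zero N n.natAbs
  refine (hfin.subset ?_).to_subtype
  intro x hx
  have hx' : n • x = 0 := (mem_torsSub_iff N n x).mp hx
  show n.natAbs • x = 0
  rcases Int.natAbs_eq n with h | h
  · rw [h, natCast_zsmul] at hx'
    exact hx'
  · rw [h, neg_smul, natCast_zsmul, neg_eq_zero] at hx'
    exact hx'

/-- the torsion subgroup is Galois-stable. -/
theorem stab (σ : GQ) (x : JZero N) (hx : x ∈ torsSub N n) :
    arithmeticGalois (modularFunctionFieldFull N) σ • x ∈ torsSub N n := by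
  rw [mem_torsSub_iff] at hx ⊢
  show n • (σ • x) = 0
  rw [← smul_zsmul_comm_aux σ n x, hx]
  exact smul_zero (A := JZero N) σ

/-- the Galois action on `J0(N)[n]`. -/
def actM (σ : GQ) (m : ↥(torsSub N n)) : ↥(torsSub N n) :=
  ⟨arithmeticGalois (modularFunctionFieldFull N) σ • (m : JZero N), stab N n σ m.1 m.2⟩

@[simp] theorem coe_actM (σ : GQ) (m : ↥(torsSub N n)) :
    ((actM N n σ m : ↥(torsSub N n)) : JZero N) = σ • (m : JZero N) := rfl

theorem hact1 (x : ↥(torsSub N n)) : actM N n 1 x = x := by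
  apply Subtype.ext
  rw [coe_actM, one_smul]

theorem hactmul (σ τ : GQ) (x : ↥(torsSub N n)) :
    actM N n (σ * τ) x = actM N n σ (actM N n τ x) := by
  apply Subtype.ext
  rw [coe_actM, coe_actM, coe_actM, mul_smul]

theorem hactadd (σ : GQ) (x y : ↥(torsSub N n)) :
    actM N n σ (x + y) = actM N n σ x + actM N n σ y := by
  apply Subtype.ext
  rw [AddSubgroup.coe_add, coe_actM, coe_actM, coe_actM, AddSubgroup.coe_add, smul_add]

/-- **open stabilizers.** -/
theorem hopen (x : ↥(torsSub N n)) :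
    ∃ K : IntermediateField ℚ Qb, FiniteDimensional ℚ K ∧
      ∀ σ ∈ K.fixingSubgroup, actM N n σ x = x := by
  obtain ⟨K, hK, H⟩ := Fermat.Agent.ES.GAL.OpenStab12.hasLevel_pic0 N (x : JZero N)
  refine ⟨K, hK, fun σ hσ => ?_⟩
  apply Subtype.ext
  rw [coe_actM]
  refine H σ fun a ha => ?_
  exact (IntermediateField.mem_fixingSubgroup_iff K σ).mp hσ a ha

/-- the identity-on-elements isomorphism `torsSub N n ≃+ torsionBy ℤ (JZero N) n`. -/
def torsEquiv : ↥(torsSub N n) ≃+ ↥(Submodule.torsionBy ℤ (JZero N) n) where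
  toFun x := ⟨x.1, x.2⟩
  invFun x := ⟨x.1, x.2⟩
  left_inv _ := rfl
  right_inv _ := rfl
  map_add' _ _ := rfl

theorem torsEquiv_actM (σ : GQ) (m : ↥(torsSub N n)) :
    torsEquiv N n (actM N n σ m) = torsAct N n σ (torsEquiv N n m) := rfl

/-- **a flat model of `(J0(N)[ℓ^k], actM)` gives `TorsFlat`.** -/
theorem torsFlat_of_hasFlatModel (ℓ k : ℕ)
    (h : HasFlatModel (ratLocalizedAt ℓ) Qb GQ ↥(torsSub N ((ℓ : ℤ) ^ k))
      (actM N ((ℓ : ℤ) ^ k))) : TorsFlat N ℓ k :=
  HasFlatModel.of_addEquiv h (torsEquiv N ((ℓ : ℤ) ^ k))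
    (fun σ m => torsEquiv_actM N ((ℓ : ℤ) ^ k) σ m)

end

end Fermat.Agent.FF.FINAL.TorsM4
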